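import Mathlib

set_option autoImplicit false

/-!
# S27, seat E, leaf VAL-AD (helper40): a valuation ring adapted to an algebraically independent family

`K ⊆ Ω` fields, `A` a valuation ring of `K`, `t : ι → Ω` algebraically independent over `K`.

* `exists_valuationSubring_of_prime` : a valuation ring of `Ω` dominating the localisation of a
  subring at a prime ideal.
* `exists_valuationSubring_adapted` : there is a valuation ring `V` of `Ω` with `V ∩ K = A`,
  `t i ∈ V`, in which every polynomial in `t` with coefficients in `A`, one of them a unit, is a unit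
  (`V` extends the Gauss valuation of `K(t)`).
* `algebraicIndependent_res` : for such `V` and any compatible residue maps `res : V → ω`,
  `resA : A → k` (surjective), the residues of the `t i` are algebraically independent over `k`.
* `isAlgebraic_res` : if `Ω` is algebraic over `K(t)`, then `ω` is algebraic over `k(t̄)`.
-/

namespace Fermat.Agent.S27

open IsLocalRing

/-- a valuation ring dominating the localisation of a subring at a prime. -/
theorem exists_valuationSubring_of_prime {Ω : Type*} [Field Ω] (S : Subring Ω) (P : Ideal S)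
    [P.IsPrime] :
    ∃ V : ValuationSubring Ω, S ≤ V.toSubring ∧
      (∀ s : S, s ∈ P → (s : Ω) ∈ V.nonunits) ∧
      (∀ s : S, s ∉ P → (s : Ω) ≠ 0 ∧ (s : Ω)⁻¹ ∈ V) := by
  obtain ⟨V, hV⟩ := (LocalSubring.ofPrime S P).exists_le_valuationSubring
  obtain ⟨hle, hloc⟩ := hV
  have hS : S ≤ V.toSubring := (LocalSubring.le_ofPrime S P).trans hle
  refine ⟨V, hS, ?_, ?_⟩
  · intro s hs
    have h1 : algebraMap S (LocalSubring.ofPrime S P).toSubring s ∈
        maximalIdeal (LocalSubring.ofPrime S P).toSubring :=
      (IsLocalization.AtPrime.to_map_mem_maximal_iff _ P s).mpr hs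
    have h2 : ¬ IsUnit (algebraMap S (LocalSubring.ofPrime S P).toSubring s) :=
      (mem_maximalIdeal _).mp h1
    have h3 : ¬ IsUnit (Subring.inclusion hle (algebraMap S (LocalSubring.ofPrime S P).toSubring s)) :=
      fun h => h2 (hloc.map_nonunit _ h)
    rw [ValuationSubring.mem_nonunits_iff_exists_mem_maximalIdeal]
    refine ⟨hS s.2, ?_⟩
    rw [mem_maximalIdeal]
    exact h3
  · intro s hs
    have h1 : IsUnit (algebraMap S (LocalSubring.ofPrime S P).toSubring s) :=
      (IsLocalization.AtPrime.isUnit_to_map_iff _ P s).mpr hs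
    obtain ⟨u, hu⟩ := h1
    have h2 : (s : Ω) * ((↑(u⁻¹ : ((LocalSubring.ofPrime S P).toSubring)ˣ) :
        (LocalSubring.ofPrime S P).toSubring) : Ω) = 1 := by
      have := congrArg Subtype.val u.mul_inv
      rw [hu] at this
      exact this
    have hne : (s : Ω) ≠ 0 := left_ne_zero_of_mul_eq_one h2
    refine ⟨hne, ?_⟩
    rw [eq_comm.mp (eq_inv_of_mul_eq_one_right h2)]
    exact hle (SetLike.coe_mem _)

section Adapted

variable {K Ω : Type*} [Field K] [Field Ω] [Algebra K Ω] (A : ValuationSubring K)
  {ι : Type*} (t : ι → Ω)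

/-- evaluation of polynomials with coefficients in `A` at `t`. -/
def evA : MvPolynomial ι A →+* Ω :=
  MvPolynomial.eval₂Hom ((algebraMap K Ω).comp A.subtype) t

theorem evA_eq (P : MvPolynomial ι A) :
    evA A t P = MvPolynomial.aeval t (MvPolynomial.map A.subtype P) := by
  unfold evA
  rw [MvPolynomial.aeval_def, MvPolynomial.eval₂_map]
  rfl

theorem evA_C (a : A) : evA A t (MvPolynomial.C a) = algebraMap K Ω (a : K) := by
  unfold evA
  simp

theorem evA_X (i : ι) : evA A t (MvPolynomial.X i) = t i := by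
  unfold evA
  simp

variable {t}

theorem evA_injective (ht : AlgebraicIndependent K t) : Function.Injective (evA A t) := by
  intro P Q h
  rw [evA_eq, evA_eq] at h
  have h1 := ht h
  exact MvPolynomial.map_injective _ (Subtype.val_injective) h1

/-- **Valuation ring adapted to an algebraically independent family.** -/
theorem exists_valuationSubring_adapted (ht : AlgebraicIndependent K t) :
    ∃ V : ValuationSubring Ω, V.comap (algebraMap K Ω) = A ∧ (∀ i, t i ∈ V) ∧
      ∀ P : MvPolynomial ι A, (∃ d, IsUnit (MvPolynomial.coeff d P)) →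
        evA A t P ≠ 0 ∧ (evA A t P)⁻¹ ∈ V := by
  classical
  have hinj : Function.Injective (evA A t) := evA_injective A ht
  have hinj' : Function.Injective (evA A t).rangeRestrict := by
    intro a b h
    apply hinj
    have := congrArg Subtype.val h
    simpa using this
  let e : MvPolynomial ι A ≃+* (evA A t).range :=
    RingEquiv.ofBijective (evA A t).rangeRestrict ⟨hinj', (evA A t).rangeRestrict_surjective⟩
  let red : MvPolynomial ι A →+* MvPolynomial ι (IsLocalRing.ResidueField A) :=
    MvPolynomial.map (IsLocalRing.residue A)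
  let σ : (evA A t).range →+* MvPolynomial ι (IsLocalRing.ResidueField A) :=
    red.comp e.symm.toRingHom
  have hσ : ∀ P : MvPolynomial ι A, σ ⟨evA A t P, ⟨P, rfl⟩⟩ = red P := by
    intro P
    show red (e.symm ⟨evA A t P, ⟨P, rfl⟩⟩) = red P
    congr 1
    rw [RingEquiv.symm_apply_eq]
    rfl
  haveI : (RingHom.ker σ).IsPrime := RingHom.ker_isPrime σ
  obtain ⟨V, hS, hP, hnP⟩ := exists_valuationSubring_of_prime (evA A t).range (RingHom.ker σ)
  have hAV : ∀ a : A, algebraMap K Ω (a : K) ∈ V := fun a =>
    hS ⟨MvPolynomial.C a, evA_C A t a⟩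
  refine ⟨V, ?_, ?_, ?_⟩
  · ext x
    rw [ValuationSubring.mem_comap]
    constructor
    · intro hx
      by_contra hxA
      have hx0 : x ≠ 0 := fun h => hxA (h ▸ A.zero_mem)
      have hinvA : x⁻¹ ∈ A := (A.mem_or_inv_mem x).resolve_left hxA
      have hnu : ¬ IsUnit (⟨x⁻¹, hinvA⟩ : A) := by
        intro hu
        obtain ⟨u, hu'⟩ := hu
        apply hxA
        have h1 : ((↑(u⁻¹ : Aˣ) : A) : K) * x⁻¹ = 1 := by
          have := congrArg Subtype.val u.inv_mul
          rw [hu'] at this
          exact this
        have h2 : ((↑(u⁻¹ : Aˣ) : A) : K) = x := by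
          field_simp at h1
          exact h1
        rw [← h2]
        exact SetLike.coe_mem _
      have hres : IsLocalRing.residue A ⟨x⁻¹, hinvA⟩ = 0 := by
        rw [IsLocalRing.residue_eq_zero_iff]
        exact (IsLocalRing.mem_maximalIdeal _).mpr hnu
      have hmem : (⟨evA A t (MvPolynomial.C ⟨x⁻¹, hinvA⟩), ⟨_, rfl⟩⟩ : (evA A t).range) ∈
          RingHom.ker σ := by
        rw [RingHom.mem_ker, hσ]
        show MvPolynomial.map (IsLocalRing.residue A) (MvPolynomial.C _) = 0
        rw [MvPolynomial.map_C, hres, map_zero]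
      have h3 := hP _ hmem
      have h4 : algebraMap K Ω x⁻¹ ∈ V.nonunits := by
        have : ((⟨evA A t (MvPolynomial.C ⟨x⁻¹, hinvA⟩), ⟨_, rfl⟩⟩ : (evA A t).range) : Ω)
            = algebraMap K Ω x⁻¹ := evA_C A t _
        rw [← this]
        exact h3
      rw [ValuationSubring.mem_nonunits_iff_exists_mem_maximalIdeal] at h4
      obtain ⟨hmemV, hmax⟩ := h4
      rw [IsLocalRing.mem_maximalIdeal] at hmax
      apply hmax
      rw [isUnit_iff_exists_inv]
      refine ⟨⟨algebraMap K Ω x, hx⟩, Subtype.ext ?_⟩
      show algebraMap K Ω x⁻¹ * algebraMap K Ω x = 1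
      rw [← map_mul, inv_mul_cancel₀ hx0, map_one]
    · intro hx
      exact hAV ⟨x, hx⟩
  · intro i
    exact hS ⟨MvPolynomial.X i, evA_X A t i⟩
  · rintro P ⟨d, hd⟩
    have hnot : (⟨evA A t P, ⟨P, rfl⟩⟩ : (evA A t).range) ∉ RingHom.ker σ := by
      rw [RingHom.mem_ker, hσ]
      intro h0
      have h1 := congrArg (MvPolynomial.coeff d) h0
      rw [MvPolynomial.coeff_map, MvPolynomial.coeff_zero] at h1
      have h2 : MvPolynomial.coeff d P ∈ IsLocalRing.maximalIdeal A :=
        (IsLocalRing.residue_eq_zero_iff _).mp h1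
      exact (IsLocalRing.mem_maximalIdeal _).mp h2 hd
    exact hnP _ hnot

/-- the Gauss property of a valuation ring `V` of `Ω` relative to `A` and `t`. -/
def IsAdapted (V : ValuationSubring Ω) : Prop :=
  (∀ a : A, algebraMap K Ω (a : K) ∈ V) ∧ (∀ i, t i ∈ V) ∧
    ∀ P : MvPolynomial ι A, (∃ d, IsUnit (MvPolynomial.coeff d P)) →
      evA A t P ≠ 0 ∧ (evA A t P)⁻¹ ∈ V

theorem exists_isAdapted (ht : AlgebraicIndependent K t) :
    ∃ V : ValuationSubring Ω, V.comap (algebraMap K Ω) = A ∧ IsAdapted A (t := t) V := by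
  obtain ⟨V, h1, h2, h3⟩ := exists_valuationSubring_adapted A ht
  refine ⟨V, h1, fun a => ?_, h2, h3⟩
  have : (a : K) ∈ V.comap (algebraMap K Ω) := by rw [h1]; exact a.2
  exact this

variable {A}

theorem IsAdapted.evA_mem {V : ValuationSubring Ω} (hV : IsAdapted A (t := t) V)
    (P : MvPolynomial ι A) : evA A t P ∈ V := by
  induction P using MvPolynomial.induction_on with
  | C a => rw [evA_C]; exact hV.1 a
  | add p q hp hq => rw [map_add]; exact V.add_mem _ _ hp hq
  | mul_X p i hp => rw [map_mul, evA_X]; exact V.mul_mem _ _ hp (hV.2.1 i)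

/-- the residues of an adapted family are algebraically independent. -/
theorem IsAdapted.algebraicIndependent_res {V : ValuationSubring Ω}
    (hV : IsAdapted A (t := t) V) {k ω : Type*} [Field k] [Field ω] [Algebra k ω]
    (res : V →+* ω) (resA : A →+* k) (hsurj : Function.Surjective resA)
    (hcomp : ∀ a : A, res ⟨algebraMap K Ω (a : K), hV.1 a⟩ = algebraMap k ω (resA a)) :
    AlgebraicIndependent k (fun i => res ⟨t i, hV.2.1 i⟩) := by
  classical
  rw [algebraicIndependent_iff]
  intro p hp
  by_contra hp0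
  obtain ⟨P, rfl⟩ := MvPolynomial.map_surjective resA hsurj p
  obtain ⟨d, hd⟩ := MvPolynomial.ne_zero_iff.mp hp0
  rw [MvPolynomial.coeff_map] at hd
  have hunit : IsUnit (MvPolynomial.coeff d P) := by
    by_contra hnu
    apply hd
    have hmax : (RingHom.ker resA).IsMaximal := RingHom.ker_isMaximal_of_surjective resA hsurj
    have h1 : RingHom.ker resA = IsLocalRing.maximalIdeal A := IsLocalRing.eq_maximalIdeal hmax
    have h2 : MvPolynomial.coeff d P ∈ IsLocalRing.maximalIdeal A :=
      (IsLocalRing.mem_maximalIdeal _).mpr hnu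
    rw [← h1] at h2
    exact h2
  obtain ⟨hne, hinv⟩ := hV.2.2 P ⟨d, hunit⟩
  -- the residue of `evA P` is `aeval t̄ (map resA P) = 0`
  have hres : res ⟨evA A t P, hV.evA_mem P⟩
      = MvPolynomial.aeval (fun i => res ⟨t i, hV.2.1 i⟩) (MvPolynomial.map resA P) := by
    have key : ∀ Q : MvPolynomial ι A, ∀ hQ : evA A t Q ∈ V,
        res ⟨evA A t Q, hQ⟩
          = MvPolynomial.aeval (fun i => res ⟨t i, hV.2.1 i⟩) (MvPolynomial.map resA Q) := by
      intro Q
      induction Q using MvPolynomial.induction_on with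
      | C a =>
        intro hQ
        rw [MvPolynomial.map_C, MvPolynomial.aeval_C, ← hcomp]
        congr 1
        exact Subtype.ext (evA_C A t a)
      | add p q hp hq =>
        intro hQ
        have e : (⟨evA A t (p + q), hQ⟩ : V)
            = ⟨evA A t p, hV.evA_mem p⟩ + ⟨evA A t q, hV.evA_mem q⟩ :=
          Subtype.ext (map_add _ _ _)
        rw [e, map_add, map_add, map_add, hp, hq]
      | mul_X p i hp =>
        intro hQ
        have e : (⟨evA A t (p * MvPolynomial.X i), hQ⟩ : V)
            = ⟨evA A t p, hV.evA_mem p⟩ * ⟨t i, hV.2.1 i⟩ :=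
          Subtype.ext (by
            show evA A t (p * MvPolynomial.X i) = evA A t p * t i
            rw [map_mul, evA_X])
        rw [e, map_mul, map_mul, map_mul, hp, MvPolynomial.map_X, MvPolynomial.aeval_X]
    exact key P _
  rw [hp] at hres
  have h1 : (⟨evA A t P, hV.evA_mem P⟩ : V) * ⟨(evA A t P)⁻¹, hinv⟩ = 1 :=
    Subtype.ext (mul_inv_cancel₀ hne)
  have h2 := congrArg res h1
  rw [map_mul, hres, zero_mul, map_one] at h2
  exact zero_ne_one h2

end Adapted

end Fermat.Agent.S27
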